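import Fermat.Agent.RT.Two.Twin.Galois
import Fermat.Agent.RT.Two.Twin.Local
import Fermat.Agent.Mazur.Small.Five
import Fermat.Agent.EC.Torsion.Galois
import Fermat.Agent.Arith.Places

/-!
# A member of the Hessian pencil with irreducible 5-torsion

For a prime `l ≡ ±2 (mod 5)` dividing a value of the discriminant form of the pencil, some member
of the pencil has `c₄ ≡ 0 (mod l)`. Its 5-torsion is irreducible, since the modular curve
`X₀(5)` has no point with `j ≡ 0 (mod l)` over the field with `l` elements.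
-/

set_option autoImplicit false

namespace Fermat.Agent.RT.Semistable

open WeierstrassCurve Fermat.Agent.RT.Two.Twin

theorem exists_prime_factor_mod_five (n : ℕ) (h : n % 5 = 2 ∨ n % 5 = 3) :
    ∃ l : ℕ, l.Prime ∧ l ∣ n ∧ (l % 5 = 2 ∨ l % 5 = 3) := by
  induction n using Nat.strong_induction_on with
  | _ n ih =>
    obtain ⟨p, hp, m, rfl⟩ := Nat.exists_prime_and_dvd (show n ≠ 1 by omega)
    by_cases hp5 : p % 5 = 2 ∨ p % 5 = 3
    · exact ⟨p, hp, dvd_mul_right _ _, hp5⟩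
    · have e := Nat.mul_mod p m 5
      have hm0 : m ≠ 0 := by rintro rfl; simp at h
      have hlt : m < p * m := lt_mul_of_one_lt_left (Nat.pos_of_ne_zero hm0) hp.one_lt
      have hm : m % 5 = 2 ∨ m % 5 = 3 := by
        have h5 : p % 5 = 0 ∨ p % 5 = 1 ∨ p % 5 = 4 := by omega
        rcases h5 with e5 | e5 | e5 <;> rw [e5] at e <;> omega
      obtain ⟨l, hl, hlm, hl5⟩ := ih m hlt hm
      exact ⟨l, hl, hlm.mul_left _, hl5⟩

theorem mod_five_facts : (∀ r : ZMod 5, r * r ≠ 2 ∧ r * r ≠ 3) ∧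
    (1728 : ZMod 5) = 3 ∧ (3 : ZMod 5) ≠ 0 := by decide

theorem not_isSquare_five {l : ℕ} [Fact l.Prime] (hl : l % 5 = 2 ∨ l % 5 = 3) (h2 : l ≠ 2) :
    ¬ IsSquare (5 : ZMod l) := by
  have : Fact (Nat.Prime 5) := ⟨by norm_num⟩
  intro h
  have h' : IsSquare (l : ZMod 5) :=
    (ZMod.exists_sq_eq_prime_iff_of_mod_four_eq_one (p := 5) (q := l) (by norm_num) h2).mpr
      (by exact_mod_cast h)
  obtain ⟨r, hr⟩ := h'
  rw [← ZMod.natCast_mod l 5] at hr
  rcases hl with e | e <;> rw [e] at hr <;> push_cast at hr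
  · exact (mod_five_facts.1 r).1 hr.symm
  · exact (mod_five_facts.1 r).2 hr.symm

/-- A semistable curve with `c₄ ≡ 0` modulo an odd prime `l ≡ ±2 (mod 5)` has irreducible
5-torsion. -/
theorem irreducible_five_of_dvd_c₄ (E : WeierstrassCurve ℤ) (hE : E.IsSemistableModel)
    (hΔ : E.Δ ≠ 0) {l : ℕ} (hl : l.Prime) (h2 : l ≠ 2) (hl5 : l % 5 = 2 ∨ l % 5 = 3)
    (hc : (l : ℤ) ∣ E.c₄) : E.ModRepIsIrreducible 5 := by
  classical
  have : Fact l.Prime := ⟨hl⟩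
  by_contra hirr
  set V : WeierstrassCurve ℚ := E.map (Int.castRingHom ℚ) with hV
  have hΔV : V.Δ ≠ 0 := by rw [hV, WeierstrassCurve.map_Δ, eq_intCast]; exact_mod_cast hΔ
  have : V.IsElliptic := ⟨isUnit_iff_ne_zero.2 hΔV⟩
  have := Fermat.Agent.Arith.qBar_isGalois
  obtain ⟨P, hP0, hP5, hP⟩ := Mazur.Small.exists_stable_point
    V (p := 5) (by norm_num)
    (EC.Torsion.natCard_torsionBy_algebraicClosureRat V (n := 5) (by norm_num)) hirr
  obtain ⟨S, hS, -⟩ :=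
    Mazur.Small.exists_five_parameter hP0 hP5 fun σ => (hP σ).imp fun _ h => h.2
  simp only [hV, WeierstrassCurve.map_Δ, WeierstrassCurve.map_c₄, eq_intCast] at hS
  set a : ℤ := S.num with ha
  set b : ℕ := S.den with hb
  have hb0 : (b : ℚ) ≠ 0 := by rw [hb]; exact_mod_cast S.den_nz
  rw [← Rat.num_div_den S, ← ha, ← hb] at hS
  have key : E.c₄ ^ 3 * a * (b : ℤ) ^ 5 = E.Δ * (a ^ 2 + 10 * a * b + 5 * (b : ℤ) ^ 2) ^ 3 := by
    apply Int.cast_injective (α := ℚ)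
    push_cast
    field_simp at hS
    linear_combination hS
  have hlz := Nat.prime_iff_prime_int.mp hl
  have hlΔ : ¬ (l : ℤ) ∣ E.Δ := fun h => hE l hl h hc
  have hq : (l : ℤ) ∣ a ^ 2 + 10 * a * b + 5 * (b : ℤ) ^ 2 :=
    hlz.dvd_of_dvd_pow ((hlz.dvd_mul.mp
      (key ▸ ((hc.trans (dvd_pow_self _ (by norm_num))).mul_right _).mul_right _)).resolve_left hlΔ)
  have hlb : ¬ (l : ℤ) ∣ b := fun hbd => by
    have h' : (l : ℤ) ∣ a ^ 2 := by
      have e : a ^ 2 = a ^ 2 + 10 * a * b + 5 * (b : ℤ) ^ 2 - (b : ℤ) * (10 * a + 5 * b) := by ring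
      rw [e]; exact dvd_sub hq (hbd.mul_right _)
    exact hl.not_dvd_one ((S.reduced : Nat.Coprime a.natAbs b).gcd_eq_one ▸
      Nat.dvd_gcd (Int.natCast_dvd.mp (hlz.dvd_of_dvd_pow h')) (Int.natCast_dvd_natCast.mp hbd))
  refine not_isSquare_five hl5 h2 ⟨((a : ZMod l) + 5 * b) / (2 * b), ?_⟩
  have hb' : (b : ZMod l) ≠ 0 := fun e => hlb (by
    exact_mod_cast (ZMod.natCast_eq_zero_iff b l).mp e)
  have h2' : (2 : ZMod l) ≠ 0 := fun e => h2
    ((Nat.prime_dvd_prime_iff_eq hl Nat.prime_two).mp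
      ((ZMod.natCast_eq_zero_iff 2 l).mp (by exact_mod_cast e)))
  have hq' := (ZMod.intCast_zmod_eq_zero_iff_dvd _ l).mpr hq
  push_cast at hq'
  field_simp
  linear_combination -hq'

theorem exists_qD_mod_five : ∀ C D : ZMod 5, (C ≠ 0 ∨ D ≠ 0) →
    ∃ r : ZMod 5, qD C D r 1 = 2 ∨ qD C D r 1 = 3 := by
  unfold qD
  decide

theorem q4_of_root {R : Type*} [CommRing R] {c d t : R} (h : qD c d t 1 = 0) :
    q4 c d (3 * c - t ^ 2) (2 * t) = 0 := by
  have e : q4 c d (3 * c - t ^ 2) (2 * t)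
      = qD c d t 1 * (c * t ^ 4 - 8 * d * t ^ 3 + 18 * c ^ 2 * t ^ 2 - 27 * c ^ 3) := by
    simp only [q4, qD]; ring
  rw [e, h, zero_mul]

/-- A prime `l ≡ ±2 (mod 5)` modulo which the pencil has a member with `c₄ = 0`. -/
theorem exists_aux_prime (W : WeierstrassCurve ℤ) (hW : W.IsSemistableModel) (hΔ : W.Δ ≠ 0) :
    ∃ l : ℕ, l.Prime ∧ (l % 5 = 2 ∨ l % 5 = 3) ∧ ¬ (l : ℤ) ∣ 6 * W.Δ ∧
      ((l : ℤ) ∣ W.c₄ ∨
        ∃ X Y : ℤ, ¬ (l : ℤ) ∣ Y ∧ (l : ℤ) ∣ q4 W.c₄ W.c₆ X Y) := by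
  classical
  have : Fact (Nat.Prime 5) := ⟨by norm_num⟩
  set c := W.c₄ with hc
  set d := W.c₆ with hd
  set Q := (6 * W.Δ).natAbs.primeFactors.erase 5 with hQ
  set y : ℕ := ∏ q ∈ Q, q with hy
  have hQp : ∀ q ∈ Q, q.Prime := fun q hq => Nat.prime_of_mem_primeFactors (Finset.mem_of_mem_erase hq)
  have hy5 : ¬ 5 ∣ y := fun h => by
    obtain ⟨q, hq, h5⟩ := ((Fact.out : Nat.Prime 5).prime.dvd_finsetProd_iff _).mp h
    exact (Finset.ne_of_mem_erase hq) ((Nat.prime_dvd_prime_iff_eq (by norm_num) (hQp q hq)).mp h5).symm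
  have hy0 : (y : ZMod 5) ≠ 0 := fun e => hy5 ((ZMod.natCast_eq_zero_iff y 5).mp e)
  have hcd : (c : ZMod 5) ≠ 0 ∨ (d : ZMod 5) ≠ 0 := by
    by_contra h
    push Not at h
    have h5 : ((5 : ℕ) : ℤ) ∣ W.Δ := by
      rw [← ZMod.intCast_zmod_eq_zero_iff_dvd]
      have e := congrArg (fun z : ℤ => (z : ZMod 5)) W.c_relation
      simp only [Int.cast_mul, Int.cast_sub, Int.cast_pow, ← hc, ← hd, h.1, h.2, Int.cast_ofNat] at e
      rw [mod_five_facts.2.1] at e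
      simpa [mod_five_facts.2.2] using e
    exact hW 5 (by norm_num) h5 ((ZMod.intCast_zmod_eq_zero_iff_dvd _ 5).mp h.1)
  obtain ⟨r, hr⟩ := exists_qD_mod_five _ _ hcd
  obtain ⟨k, hk⟩ : ∃ k : ℤ, (1 : ZMod 5) + k * (y : ZMod 5) = r * (y : ZMod 5) := by
    obtain ⟨k, hk⟩ := ZMod.intCast_surjective ((r * (y : ZMod 5) - 1) / (y : ZMod 5))
    exact ⟨k, by rw [hk, div_mul_cancel₀ _ hy0]; ring⟩
  set x : ℤ := 1 + k * y with hx
  set D := qD c d x y with hD
  have hD5 : (D : ZMod 5) = 2 ∨ (D : ZMod 5) = 3 := by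
    have e : (D : ZMod 5) = qD (c : ZMod 5) d r 1 := by
      have e1 : (x : ZMod 5) = r * y := by rw [hx]; push_cast; exact hk
      have e4 : (y : ZMod 5) ^ 4 = 1 := ZMod.pow_card_sub_one_eq_one hy0
      rw [hD, ← eq_intCast (Int.castRingHom (ZMod 5)), map_qD]
      simp only [eq_intCast, e1, Int.cast_natCast]
      rw [show (r : ZMod 5) * y = y * r by ring]
      conv_lhs => arg 4; rw [← mul_one (y : ZMod 5)]
      rw [qD_smul, e4, one_mul]
    rwa [e]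
  have hn : D.natAbs % 5 = 2 ∨ D.natAbs % 5 = 3 := by
    have h' : D % 5 = 2 ∨ D % 5 = 3 := by
      rcases hD5 with e | e
      · exact Or.inl (by simpa using (ZMod.intCast_eq_intCast_iff' D 2 5).mp (by exact_mod_cast e))
      · exact Or.inr (by simpa using (ZMod.intCast_eq_intCast_iff' D 3 5).mp (by exact_mod_cast e))
    omega
  obtain ⟨l, hl, hlD, hl5⟩ := exists_prime_factor_mod_five _ hn
  have : Fact l.Prime := ⟨hl⟩
  have hlD' : (l : ℤ) ∣ D := Int.natCast_dvd.mpr hlD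
  have hlz := Nat.prime_iff_prime_int.mp hl
  have hly : ¬ (l : ℤ) ∣ y := fun h => by
    have h4 := dvd_pow_four_of_dvd_qD hlD' h
    have h1 : (l : ℤ) ∣ 1 := by
      have := dvd_sub (hlz.dvd_of_dvd_pow h4) (h.mul_left k)
      rwa [hx, add_sub_cancel_right] at this
    exact hlz.not_isUnit (isUnit_of_dvd_one h1)
  have hl6 : ¬ (l : ℤ) ∣ 6 * W.Δ := fun h => hly (by
    refine Int.natCast_dvd_natCast.mpr (Finset.dvd_prod_of_mem _ ?_)
    rw [hQ, Finset.mem_erase, Nat.mem_primeFactors]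
    exact ⟨by omega, hl, Int.natCast_dvd.mp h, Int.natAbs_ne_zero.mpr (mul_ne_zero (by norm_num) hΔ)⟩)
  refine ⟨l, hl, hl5, hl6, ?_⟩
  by_cases hlc : (l : ℤ) ∣ c
  · exact Or.inl hlc
  refine Or.inr ?_
  have h2 : (2 : ZMod l) ≠ 0 := fun e => hl6 (by
    have h := (ZMod.natCast_eq_zero_iff 2 l).mp (by exact_mod_cast e)
    exact (Int.natCast_dvd_natCast.mpr h).trans ⟨3 * W.Δ, by push_cast; ring⟩)
  have h3 : (3 : ZMod l) ≠ 0 := fun e => hl6 (by
    have h := (ZMod.natCast_eq_zero_iff 3 l).mp (by exact_mod_cast e)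
    exact (Int.natCast_dvd_natCast.mpr h).trans ⟨2 * W.Δ, by push_cast; ring⟩)
  have hc0 : (c : ZMod l) ≠ 0 := fun e => hlc ((ZMod.intCast_zmod_eq_zero_iff_dvd _ l).mp e)
  have hy' : (y : ZMod l) ≠ 0 := fun e => hly (by
    exact_mod_cast (ZMod.natCast_eq_zero_iff y l).mp e)
  set t : ZMod l := (x : ZMod l) / y with ht
  have hroot : qD (c : ZMod l) d t 1 = 0 := by
    have e := (ZMod.intCast_zmod_eq_zero_iff_dvd _ l).mpr hlD'
    rw [hD, ← eq_intCast (Int.castRingHom (ZMod l)), map_qD] at e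
    simp only [eq_intCast, Int.cast_natCast] at e
    have e2 := qD_smul (y : ZMod l) (c : ZMod l) d t 1
    rw [mul_one, ht, mul_div_cancel₀ _ hy', e] at e2
    simpa [hy', ← ht] using e2.symm
  have ht0 : t ≠ 0 := fun e => by
    rw [e] at hroot
    simp [qD, h3, hc0] at hroot
  obtain ⟨X, hX⟩ := ZMod.intCast_surjective (3 * (c : ZMod l) - t ^ 2)
  obtain ⟨Y, hY⟩ := ZMod.intCast_surjective (2 * t)
  refine ⟨X, Y, fun h => mul_ne_zero h2 ht0 (hY ▸ (ZMod.intCast_zmod_eq_zero_iff_dvd _ l).mpr h), ?_⟩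
  rw [← ZMod.intCast_zmod_eq_zero_iff_dvd, ← eq_intCast (Int.castRingHom (ZMod l)), map_q4]
  simp only [eq_intCast, hX, hY]
  exact q4_of_root hroot

/-- For a semistable curve with even discriminant and irreducible 3-torsion, a semistable curve
with even discriminant, congruent traces mod `3` and irreducible 5-torsion. -/
theorem exists_five_member (W : WeierstrassCurve ℤ) (hW : W.IsSemistableModel) (hΔ : W.Δ ≠ 0)
    (h2 : (2:ℤ) ∣ W.Δ) (_hirr3 : W.ModRepIsIrreducible 3) :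
    ∃ E : WeierstrassCurve ℤ, E.Δ ≠ 0 ∧ E.IsSemistableModel ∧ (2:ℤ) ∣ E.Δ ∧
      E.ModRepIsIrreducible 5 ∧
      ∀ l, l.Prime → W.IsGoodPrimeFor l → E.IsGoodPrimeFor l → l ≠ 3 →
        (3:ℤ) ∣ E.apOfModel l - W.apOfModel l := by
  obtain ⟨l, hl, hl5, hl6, hcase⟩ := exists_aux_prime W hW hΔ
  have hl2 : l ≠ 2 := by
    rintro rfl
    exact hl6 ⟨3 * W.Δ, by push_cast; ring⟩
  rcases hcase with hlc | ⟨X, Y, hlY, hlq⟩
  · exact ⟨W, hΔ, hW, h2, irreducible_five_of_dvd_c₄ W hW hΔ hl hl2 hl5 hlc,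
      fun q _ _ _ _ => by simp⟩
  set c := W.c₄ with hc
  set d := W.c₆ with hd
  set A : ℤ := 41472 * W.Δ with hA
  have hlz := Nat.prime_iff_prime_int.mp hl
  have hlA : ¬ (l : ℤ) ∣ A := fun h => hl6 (by
    rcases hlz.dvd_mul.mp (hA ▸ h) with h' | h'
    · have : (l : ℤ) ∣ 6 ^ 9 := h'.trans ⟨243, by norm_num⟩
      exact (hlz.dvd_of_dvd_pow this).mul_right _
    · exact h'.mul_left _)
  obtain ⟨z, hz⟩ := exists_mul_add_dvd (hlz.coprime_iff_not_dvd.mpr hlA).symm (-Y)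
  set y := z * A with hy
  have hly : ¬ (l : ℤ) ∣ y := fun h => hlY (by simpa using dvd_sub h hz)
  obtain ⟨w, hw⟩ := exists_mul_add_dvd (hlz.coprime_iff_not_dvd.mpr hly).symm (1 - X)
  set x := 1 + w * y with hx
  have hxX : (l : ℤ) ∣ x - X := by
    rw [hx, show 1 + w * y - X = w * y + (1 - X) by ring]; exact hw
  have hyY : (l : ℤ) ∣ y - Y := by simpa [sub_eq_add_neg] using hz
  have hAy : A ∣ y := ⟨z, by rw [hy]; ring⟩
  have hAx : A ∣ x - 1 := by rw [hx, add_sub_cancel_left]; exact hAy.mul_left _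
  obtain ⟨kD, k4, k6, -⟩ := congr_forms (n := A.natAbs) c d
    (x := x) (x' := 1) (y := y) (y' := 0) (by simpa using hAx) (by simpa using hAy)
  have b1 : qD c d 1 0 = 1 := by simp [qD]
  have b4 : q4 c d 1 0 = c := by simp [q4]
  have b6 : q6 c d 1 0 = d := by simp [q6]
  rw [b1, Int.natAbs_dvd] at kD
  rw [b4, Int.natAbs_dvd] at k4
  rw [b6, Int.natAbs_dvd] at k6
  obtain ⟨u4, hu4⟩ := k4
  obtain ⟨u6, hu6⟩ := k6
  rw [hA] at hu4 hu6
  set E : WeierstrassCurve ℤ := ⟨W.a₁, W.a₂, W.a₃, W.a₄ - 864 * W.Δ * u4,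
    W.a₆ - 72 * W.b₂ * W.Δ * u4 - 48 * W.Δ * u6⟩ with hE
  have e4 : E.c₄ = q4 c d x y := by
    rw [show q4 c d x y = c + 41472 * W.Δ * u4 by linear_combination hu4, hc]
    simp only [hE, WeierstrassCurve.c₄, WeierstrassCurve.b₂, WeierstrassCurve.b₄]
    ring
  have e6 : E.c₆ = q6 c d x y := by
    rw [show q6 c d x y = d + 41472 * W.Δ * u6 by linear_combination hu6, hd]
    simp only [hE, WeierstrassCurve.c₆, WeierstrassCurve.b₂, WeierstrassCurve.b₄,
      WeierstrassCurve.b₆]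
    ring
  set D := qD c d x y with hD
  have hrel : E.Δ = W.Δ * D ^ 3 := by
    refine mul_left_cancel₀ (show (1728 : ℤ) ≠ 0 by norm_num) ?_
    have e := q4_cube_sub_q6_sq c d x y
    rw [hc, hd, ← W.c_relation, ← hc, ← hd, ← e4, ← e6, ← hD] at e
    linear_combination e + E.c_relation
  have hD0 : D ≠ 0 := fun e => by
    rw [e, zero_sub, dvd_neg] at kD
    have h2A : (2 : ℤ) ∣ A := h2.trans ⟨41472, by rw [hA]; ring⟩
    exact absurd (h2A.trans kD) (by norm_num)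
  have hEΔ : E.Δ ≠ 0 := by rw [hrel]; exact mul_ne_zero hΔ (pow_ne_zero 3 hD0)
  have hES : E.IsSemistableModel := by
    intro q hq hqΔ hq4
    rw [e4] at hq4
    have hqz := Nat.prime_iff_prime_int.mp hq
    have hq1 : ¬ (q : ℤ) ∣ 1 := fun h => hqz.not_isUnit (isUnit_of_dvd_one h)
    by_cases hqA : (q : ℤ) ∣ A
    · have hqc : (q : ℤ) ∣ c := by
        have := dvd_sub hq4 (hqA.trans ⟨u4, by rw [hA]; exact hu4⟩ : (q : ℤ) ∣ q4 c d x y - c)
        simpa using this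
      rw [hrel] at hqΔ
      rcases hqz.dvd_mul.mp hqΔ with h | h
      · exact hW q hq h hqc
      · exact hq1 (by simpa using dvd_sub (hqz.dvd_of_dvd_pow h) (hqA.trans kD))
    · have : Fact q.Prime := ⟨hq⟩
      have hq6 : ¬ (q : ℤ) ∣ 6 * W.Δ := fun h => hqA (h.trans ⟨6912, by rw [hA]; ring⟩)
      have hqD : (q : ℤ) ∣ D := by
        rw [hrel] at hqΔ
        exact hqz.dvd_of_dvd_pow ((hqz.dvd_mul.mp hqΔ).resolve_left fun h => hq6 (h.mul_left _))
      refine not_dvd_q4 (fun h => ?_) hqD (fun hyq => hq1 ?_) hq4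
      · rw [hc, hd, ← W.c_relation] at h
        rcases hqz.dvd_mul.mp h with h6 | h'
        · exact hq6 (h6.mul_right _)
        rcases hqz.dvd_mul.mp h' with h' | h'
        · exact hqA (h'.trans ⟨24 * W.Δ, by rw [hA]; ring⟩)
        · exact hq6 (h'.mul_left _)
      · have := dvd_sub (hqz.dvd_of_dvd_pow (dvd_pow_four_of_dvd_qD hqD hyq)) (hyq.mul_left w)
        rwa [hx, add_sub_cancel_right] at this
  have hlE : (l : ℤ) ∣ E.c₄ := by
    rw [e4]
    have := dvd_add (congr_forms c d hxX hyY).2.1 hlq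
    simpa using this
  refine ⟨E, hEΔ, hES, hrel ▸ h2.mul_right _,
    irreducible_five_of_dvd_c₄ E hES hEΔ hl hl2 hl5 hlE, fun q hq hg hg' h3 => ?_⟩
  exact three_dvd_ap_sub (x := x) (y := y) (c := 1) one_ne_zero
    (by rw [one_pow, one_mul, e4, hc, hd]) (by rw [one_pow, one_mul, e6, hc, hd]) hΔ hEΔ hq hg hg' h3

end Fermat.Agent.RT.Semistable
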