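import Fermat.Agent.Newforms.Eigen
import Fermat.Agent.HeckeDuality.Sequence
import Fermat.Agent.IntegralStructure.Main
import Fermat.Prelude.Def_CuspForm_IntegralLattice
import Fermat.Prelude.Def_FormalHecke_Eigensystem
import Fermat.Prelude.Def_WeierstrassCurve_Mlc1RowStatement
import Fermat.Agent.HeckeDuality.DeligneSerre

/-!
# A formal eigensystem with character `χ₋₃` from modularity at the exact level

A form of squarefree level `N₀` is depleted at the primes of `N₀`: at level `N₀²` it has integral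
coefficients, those of the Hecke recursion with the coefficients of the curve. As `χ₋₃(ℓ) ≡ ℓ` and
the weight one Eisenstein series is `1` modulo `3`, the formal recursion with the character is
realised in the lattice.
-/

set_option autoImplicit false

noncomputable section

open ModularFormClass CongruenceSubgroup EisensteinWeightOne

namespace Fermat.Agent.RT.Semistable

section Seq

variable {R : Type*} [CommRing R]

/-- The values of the recursion at the powers of `ℓ`. -/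
def powVal (e lam : ℕ → R) (ℓ : ℕ) : ℕ → R
  | 0 => 1
  | 1 => lam ℓ
  | k + 2 => lam ℓ * powVal e lam ℓ (k + 1) - e ℓ * powVal e lam ℓ k

/-- The multiplicative sequence of the recursion. -/
def formalSeq (e lam : ℕ → R) (n : ℕ) : R :=
  if n = 0 then 0 else n.factorization.prod (powVal e lam)

variable (e lam : ℕ → R)

theorem formalSeq_zero : formalSeq e lam 0 = 0 := if_pos rfl

theorem formalSeq_one : formalSeq e lam 1 = 1 := by simp [formalSeq]

theorem formalSeq_prime_pow {ℓ : ℕ} (hℓ : ℓ.Prime) (k : ℕ) :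
    formalSeq e lam (ℓ ^ k) = powVal e lam ℓ k := by
  rw [formalSeq, if_neg (pow_ne_zero k hℓ.ne_zero), hℓ.factorization_pow,
    Finsupp.prod_single_index (by rfl)]

theorem formalSeq_prime {ℓ : ℕ} (hℓ : ℓ.Prime) : formalSeq e lam ℓ = lam ℓ := by
  simpa [powVal] using formalSeq_prime_pow e lam hℓ 1

theorem formalSeq_mul {m n : ℕ} (h : m.Coprime n) :
    formalSeq e lam (m * n) = formalSeq e lam m * formalSeq e lam n := by
  rcases eq_or_ne m 0 with rfl | hm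
  · simp [formalSeq_zero]
  rcases eq_or_ne n 0 with rfl | hn
  · simp [formalSeq_zero]
  simp only [formalSeq, if_neg (mul_ne_zero hm hn), if_neg hm, if_neg hn]
  rw [Nat.factorization_mul hm hn, Finsupp.prod_add_index_of_disjoint]
  simpa using h.disjoint_primeFactors

theorem seqEigen_formalSeq : HeckeDuality.SeqEigen e lam (formalSeq e lam) := by
  intro ℓ hℓ n
  rcases eq_or_ne n 0 with rfl | hn
  · simp [formalSeq_zero]
  obtain ⟨r, m, hm, rfl⟩ := Nat.exists_eq_pow_mul_and_not_dvd hn ℓ hℓ.ne_one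
  have hc : ∀ i, (ℓ ^ i).Coprime m := fun i => (hℓ.coprime_iff_not_dvd.2 hm).pow_left i
  rw [show ℓ ^ r * m * ℓ = ℓ ^ (r + 1) * m by ring, formalSeq_mul e lam (hc _),
    formalSeq_mul e lam (hc _)]
  rcases r with _ | r
  · simp [formalSeq_one, formalSeq_prime e lam hℓ, hm]
  · rw [if_pos (dvd_mul_of_dvd_left (dvd_pow_self ℓ r.succ_ne_zero) m),
      show ℓ ^ (r + 1) * m / ℓ = ℓ ^ r * m by
        rw [pow_succ, mul_right_comm, Nat.mul_div_cancel _ hℓ.pos],
      formalSeq_mul e lam (hc _), formalSeq_prime_pow e lam hℓ, formalSeq_prime_pow e lam hℓ,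
      formalSeq_prime_pow e lam hℓ]
    simp only [powVal]
    ring

theorem isEigensystem_formalSeq : FormalHecke.IsEigensystem e (formalSeq e lam) := by
  refine ⟨formalSeq_one e lam, fun ℓ hℓ n => ?_⟩
  have h := seqEigen_formalSeq e lam ℓ hℓ n
  rw [mul_comm ℓ n, formalSeq_prime e lam hℓ, ← h, mul_ite, mul_zero]

theorem map_formalSeq {S : Type*} [CommRing S] (φ : R →+* S) (n : ℕ) :
    φ (formalSeq e lam n) = formalSeq (fun i => φ (e i)) (fun i => φ (lam i)) n := by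
  have hp : ∀ ℓ k, φ (powVal e lam ℓ k) = powVal (fun i => φ (e i)) (fun i => φ (lam i)) ℓ k := by
    intro ℓ k
    induction k using Nat.twoStepInduction with
    | zero => simp [powVal]
    | one => simp [powVal]
    | more k h1 h2 => simp [powVal, h1, h2]
  unfold formalSeq
  split_ifs
  · exact map_zero φ
  · rw [map_finsuppProd]
    exact Finsupp.prod_congr fun ℓ _ => hp ℓ _

/-- A sequence with the relations of the recursion is the recursion. -/
theorem eq_formalSeq {c : ℕ → R} (h0 : c 0 = 0) (h1 : c 1 = 1)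
    (h : HeckeDuality.SeqEigen e lam c) (n : ℕ) : c n = formalSeq e lam n := by
  refine sub_eq_zero.1 (HeckeDuality.SeqEigen.eq_zero (e := e) (lam := lam)
    (a := fun i => c i - formalSeq e lam i) (fun ℓ hℓ i => ?_)
    (by simp [h0, formalSeq_zero]) (by simp [h1, formalSeq_one]) n)
  have e1 := h ℓ hℓ i
  have e2 := seqEigen_formalSeq e lam ℓ hℓ i
  split_ifs at e1 e2 ⊢ <;> linear_combination e1 - e2

end Seq

open scoped Classical in
/-- A normalised eigenform with its coefficients at the primes of `s`, which divide the level,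
removed. -/
theorem exists_depleted {N₀ : ℕ} [NeZero N₀] {f : CuspForm (Gamma0 N₀) 2}
    (hf : f.IsNormalizedEigenform) (s : Finset ℕ) (hs : ∀ ℓ ∈ s, ℓ.Prime ∧ ℓ ∣ N₀) :
    ∃ g : CuspForm (Gamma0 (N₀ * ∏ ℓ ∈ s, ℓ)) 2, ∀ n : ℕ,
      qCoeff g n = if ∃ ℓ ∈ s, ℓ ∣ n then 0 else qCoeff f n := by
  induction s using Finset.induction_on with
  | empty =>
    have : NeZero (N₀ * ∏ ℓ ∈ (∅ : Finset ℕ), ℓ) := ⟨by simpa using NeZero.ne N₀⟩
    exact ⟨Newforms.levelIncl (by simp) f, fun n => by rw [Newforms.qCoeff_levelIncl]; simp⟩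
  | insert l s hl ih =>
    obtain ⟨hlp, hlN⟩ := hs l (Finset.mem_insert_self l s)
    set M := N₀ * ∏ ℓ ∈ s, ℓ with hM
    set L := N₀ * ∏ ℓ ∈ insert l s, ℓ with hL
    obtain ⟨g, hg⟩ := ih fun ℓ hℓ => hs ℓ (Finset.mem_insert_of_mem hℓ)
    have hML : L = l * M := by rw [hL, hM, Finset.prod_insert hl]; ring
    have hM0 : M ≠ 0 := mul_ne_zero (NeZero.ne N₀)
      (Finset.prod_ne_zero_iff.2 fun ℓ hℓ => (hs ℓ (Finset.mem_insert_of_mem hℓ)).1.ne_zero)
    have : NeZero M := ⟨hM0⟩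
    have : NeZero L := ⟨hML ▸ mul_ne_zero hlp.ne_zero hM0⟩
    refine ⟨Newforms.levelIncl (hML ▸ dvd_mul_left M l) g -
      qCoeff f l • Newforms.levelRaise l (hML ▸ dvd_rfl) g, fun n => ?_⟩
    rw [HeckeDuality.coeff_sub, HeckeDuality.coeff_smul, Newforms.qCoeff_levelIncl,
      Newforms.qCoeff_levelRaise, hg]
    by_cases hln : l ∣ n
    · rw [if_pos hln, if_pos (⟨l, Finset.mem_insert_self l s, hln⟩ :
        ∃ ℓ ∈ insert l s, ℓ ∣ n), hg]
      obtain ⟨m, rfl⟩ := hln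
      rw [Nat.mul_div_cancel_left m hlp.pos]
      have hiff : (∃ ℓ ∈ s, ℓ ∣ l * m) ↔ ∃ ℓ ∈ s, ℓ ∣ m := by
        refine ⟨fun ⟨ℓ, hℓ, hd⟩ => ⟨ℓ, hℓ, ((hs ℓ (Finset.mem_insert_of_mem hℓ)).1.dvd_mul.1
          hd).resolve_left fun hd' => hl ?_⟩, fun ⟨ℓ, hℓ, hd⟩ => ⟨ℓ, hℓ, hd.mul_left l⟩⟩
        rwa [← (Nat.prime_dvd_prime_iff_eq (hs ℓ (Finset.mem_insert_of_mem hℓ)).1 hlp).1 hd']
      have hU : qCoeff f (l * m) = qCoeff f l * qCoeff f m := by
        have h := (Newforms.hOp_eq_smul_iff hlp f _).1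
          (Newforms.hOp_of_isNormalizedEigenform hf hlp) m
        rw [mul_comm l m, ← h, HeckeDuality.eulerWeight, if_pos hlN]
        simp
      by_cases hd : ∃ ℓ ∈ s, ℓ ∣ m
      · rw [if_pos (hiff.2 hd), if_pos hd]; ring
      · rw [if_neg (mt hiff.1 hd), if_neg hd, hU, sub_self]
    · rw [if_neg hln, mul_zero, sub_zero]
      have hiff : (∃ ℓ ∈ insert l s, ℓ ∣ n) ↔ ∃ ℓ ∈ s, ℓ ∣ n := by simp [hln]
      simp only [hiff]

theorem hasIntegralBasis (N : ℕ) [NeZero N] : CuspForm.HasIntegralBasis N := by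
  refine top_le_iff.1 (le_trans (le_of_eq (IntegralStructure.hasIntegralStructure N 2).symm)
    (Submodule.span_mono fun f hf n => ?_))
  obtain ⟨m, hm⟩ := (HeckeDuality.mem_intLattice_iff f).1 hf n
  exact Subring.mem_bot.2 ⟨m, hm.symm⟩

theorem three_dvd_chi_sub (n : ℕ) : (3 : ℤ) ∣ chiNegThree n - (n : ℤ) := by
  unfold chiNegThree
  split_ifs <;> omega

theorem three_dvd_bridgeProduct_sub (a : ℕ → ℤ) (n : ℕ) :
    (3 : ℤ) ∣ (bridgeProduct a).coeff n - a n :=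
  HeckeDuality.bridgeProduct_congr a n

/-- **Milestone statement 46 from modularity at the exact level.** -/
theorem weightOne_of_exact {W : WeierstrassCurve ℤ}
    (hW : Mlc1IsModularModelOfExactConductorLevel W) :
    ∃ (N : ℕ) (_ : NeZero N) (a : ℕ → ℤ),
      CuspForm.HasIntegralBasis N ∧
      FormalHecke.IsEigensystem
        (fun ℓ => if ℓ ∣ N then 0 else ((chiNegThree ℓ : ℤ) : ℤ)) a ∧
      CuspForm.IsLatticeRealized N a ∧
      (∀ q : ℕ, q.Prime → q ≠ 3 → ¬ q ^ 3 ∣ N) ∧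
      ∀ ℓ : ℕ, ℓ.Prime → W.IsGoodPrimeFor ℓ → ¬ ℓ ∣ N → ℓ ≠ 3 →
        (3 : ℤ) ∣ (a ℓ - W.apOfModel ℓ) := by
  classical
  obtain ⟨N₀, hN₀, hsf, hbad, f, hf, hfe⟩ := hW
  have : NeZero N₀ := ⟨hN₀.ne'⟩
  have hprod : ∏ ℓ ∈ N₀.primeFactors, ℓ = N₀ := Nat.prod_primeFactors_of_squarefree hsf
  set N := N₀ * ∏ ℓ ∈ N₀.primeFactors, ℓ with hN
  obtain ⟨g, hg⟩ : ∃ g : CuspForm (Gamma0 N) 2, ∀ n : ℕ,
      qCoeff g n = if ∃ ℓ ∈ N₀.primeFactors, ℓ ∣ n then 0 else qCoeff f n :=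
    exists_depleted hf N₀.primeFactors fun ℓ hℓ =>
      ⟨Nat.prime_of_mem_primeFactors hℓ, Nat.dvd_of_mem_primeFactors hℓ⟩
  have hNN : N = N₀ * N₀ := by rw [hN, hprod]
  have : NeZero N := ⟨hNN ▸ mul_ne_zero hN₀.ne' hN₀.ne'⟩
  have hdvd : ∀ ℓ : ℕ, ℓ.Prime → (ℓ ∣ N ↔ ℓ ∣ N₀) := fun ℓ hℓ =>
    ⟨fun h => (hℓ.dvd_mul.1 (hNN ▸ h)).elim id id, fun h => hNN ▸ h.mul_right N₀⟩
  set lam : ℕ → ℤ := fun ℓ => if ℓ ∣ N then 0 else W.apOfModel ℓ with hlam
  set b := formalSeq (fun ℓ => if ℓ ∣ N then 0 else (ℓ : ℤ)) lam with hb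
  set a := formalSeq (fun ℓ => if ℓ ∣ N then 0 else ((chiNegThree ℓ : ℤ) : ℤ)) lam with ha
  have hbg : ∀ n, qCoeff g n = (b n : ℂ) := by
    intro n
    rw [hg, hb, ← eq_intCast (Int.castRingHom ℂ), map_formalSeq]
    refine eq_formalSeq _ _ (c := fun i => if ∃ ℓ ∈ N₀.primeFactors, ℓ ∣ i then 0 else qCoeff f i)
      (by simp [Newforms.qCoeff_zero_eq f]) ?_ ?_ n
    · rw [if_neg, hf.qCoeff_one]
      rintro ⟨ℓ, hℓ, hd⟩
      exact (Nat.prime_of_mem_primeFactors hℓ).one_lt.ne' (Nat.dvd_one.1 hd)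
    · intro ℓ hℓ i
      by_cases hℓN : ℓ ∣ N
      · have hin : ℓ ∈ N₀.primeFactors :=
          Nat.mem_primeFactors.2 ⟨hℓ, (hdvd ℓ hℓ).1 hℓN, hN₀.ne'⟩
        have h1 : ∃ l ∈ N₀.primeFactors, l ∣ i * ℓ := ⟨ℓ, hin, dvd_mul_left ℓ i⟩
        simp only [hlam, if_pos hℓN, if_pos h1]
        simp
      · have hℓ0 : ¬ ℓ ∣ N₀ := fun h => hℓN ((hdvd ℓ hℓ).2 h)
        have hne : ∀ l ∈ N₀.primeFactors, ¬ l ∣ ℓ := fun l hl h => hℓ0
          ((Nat.prime_dvd_prime_iff_eq (Nat.prime_of_mem_primeFactors hl) hℓ).1 h ▸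
            Nat.dvd_of_mem_primeFactors hl)
        have hi1 : (∃ l ∈ N₀.primeFactors, l ∣ i * ℓ) ↔ ∃ l ∈ N₀.primeFactors, l ∣ i :=
          ⟨fun ⟨l, hl, hd⟩ => ⟨l, hl,
            ((Nat.prime_of_mem_primeFactors hl).dvd_mul.1 hd).resolve_right (hne l hl)⟩,
          fun ⟨l, hl, hd⟩ => ⟨l, hl, hd.mul_right ℓ⟩⟩
        have hap : qCoeff f ℓ = (W.apOfModel ℓ : ℂ) :=
          hfe ℓ hℓ (fun h => hℓ0 ((hbad ℓ hℓ).2 h)) hℓ0
        have hrel := (Newforms.hOp_eq_smul_iff hℓ f _).1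
          (Newforms.hOp_of_isNormalizedEigenform hf hℓ) i
        rw [hap, HeckeDuality.eulerWeight, if_neg hℓ0] at hrel
        simp only [hlam, if_neg hℓN, hi1, map_natCast, eq_intCast]
        by_cases hli : ℓ ∣ i
        · have hi2 : (∃ l ∈ N₀.primeFactors, l ∣ i / ℓ) ↔ ∃ l ∈ N₀.primeFactors, l ∣ i := by
            refine ⟨fun ⟨l, hl, hd⟩ => ⟨l, hl, hd.trans (Nat.div_dvd_of_dvd hli)⟩,
              fun ⟨l, hl, hd⟩ => ⟨l, hl, ?_⟩⟩
            rw [← Nat.div_mul_cancel hli] at hd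
            exact ((Nat.prime_of_mem_primeFactors hl).dvd_mul.1 hd).resolve_right (hne l hl)
          rw [if_pos hli] at hrel
          simp only [if_pos hli, hi2]
          split_ifs
          · ring
          · exact hrel
        · rw [if_neg hli] at hrel
          simp only [if_neg hli]
          split_ifs
          · ring
          · exact hrel
  have hab : ∀ n, (3 : ℤ) ∣ b n - a n := by
    intro n
    rw [show (3 : ℤ) = ((3 : ℕ) : ℤ) from rfl, ← ZMod.intCast_zmod_eq_zero_iff_dvd, Int.cast_sub,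
      sub_eq_zero, ← eq_intCast (Int.castRingHom (ZMod 3)), ← eq_intCast (Int.castRingHom (ZMod 3)),
      hb, ha, map_formalSeq, map_formalSeq]
    congr 1
    funext ℓ
    split_ifs
    · rfl
    · rw [eq_intCast, eq_intCast]
      exact ((ZMod.intCast_eq_intCast_iff_dvd_sub (chiNegThree ℓ) (ℓ : ℤ) 3).2
        (dvd_sub_comm.1 (by exact_mod_cast three_dvd_chi_sub ℓ))).symm
  refine ⟨N, inferInstance, a, hasIntegralBasis N, isEigensystem_formalSeq _ _,
    ⟨g, fun n => Subring.mem_bot.2 ⟨b n, (hbg n).symm⟩, b, fun n => (hbg n).symm, fun n => ?_⟩,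
    fun q hq _ hd => ?_, fun ℓ hℓ _ hℓN _ => ?_⟩
  · have h := three_dvd_bridgeProduct_sub a n
    have := dvd_sub (hab n) h
    rwa [sub_sub_sub_cancel_right] at this
  · rw [hNN] at hd
    have h2 : q ∣ N₀ := (hq.dvd_mul.1 ((dvd_pow_self q three_ne_zero).trans hd)).elim id id
    obtain ⟨c, hc⟩ := h2
    have hqc : ¬ q ∣ c := fun ⟨d, hd'⟩ => hq.one_lt.ne'
      (Nat.isUnit_iff.1 (hsf q ⟨d, by rw [hc, hd']; ring⟩))
    rw [hc, show q * c * (q * c) = q ^ 2 * (c * c) by ring, pow_succ] at hd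
    exact (hq.dvd_mul.1 (Nat.dvd_of_mul_dvd_mul_left (pow_pos hq.pos 2) hd)).elim hqc hqc
  · rw [ha, formalSeq_prime _ _ hℓ, hlam]
    simp [hℓN]

end Fermat.Agent.RT.Semistable

end
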