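import Fermat.Agent.RT.Two.Twin.Main

/-!
# A twin with supersingular good reduction at `2`, general semistable case

`exists_twin'` extends `RT.Two.Twin.exists_twin_of_odd` to good supersingular reduction at `2`.
-/

set_option autoImplicit false

namespace Fermat.Agent.RT.Semistable

open WeierstrassCurve Fermat.Agent.RT.Two.Twin

/-- Good supersingular reduction at `2`. -/
theorem exists_twin_of_even (W : WeierstrassCurve ℤ) (hW : W.IsSemistableModel) (hΔ : W.Δ ≠ 0)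
    (hirr : W.ModRepIsIrreducible 3) (hc2 : (2 : ℤ) ∣ W.c₄) :
    ∃ E : WeierstrassCurve ℤ, E.IsSemistableModel ∧ Even E.a₁ ∧ Odd E.a₃ ∧ E.Δ < 0 ∧
      (∀ q : ℕ, q.Prime → (q : ℤ) ∣ E.Δ → Odd (padicValInt q E.Δ)) ∧
      ∀ ℓ : ℕ, ℓ.Prime → W.IsGoodPrimeFor ℓ → E.IsGoodPrimeFor ℓ → ℓ ≠ 3 →
        (3 : ℤ) ∣ E.apOfModel ℓ - W.apOfModel ℓ := by
  have hΔ2 : ¬ (2 : ℤ) ∣ W.Δ := fun h => hW 2 Nat.prime_two h hc2
  obtain ⟨α, hα⟩ : (2 : ℤ) ∣ W.a₁ := by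
    have h : (2 : ℤ) ∣ W.b₂ ^ 2 := by
      have e : W.b₂ ^ 2 = W.c₄ + 24 * W.b₄ := by simp only [WeierstrassCurve.c₄]; ring
      rw [e]; exact dvd_add hc2 ((by norm_num : (2 : ℤ) ∣ 24).mul_right _)
    have h' : (2 : ℤ) ∣ W.a₁ ^ 2 := by
      have e : W.a₁ ^ 2 = W.b₂ - 4 * W.a₂ := by simp only [WeierstrassCurve.b₂]; ring
      rw [e]
      exact dvd_sub (Int.prime_two.dvd_of_dvd_pow h) ((by norm_num : (2 : ℤ) ∣ 4).mul_right _)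
    exact Int.prime_two.dvd_of_dvd_pow h'
  obtain ⟨β, hβ⟩ : ∃ β, W.b₂ = 4 * β :=
    ⟨α ^ 2 + W.a₂, by simp only [WeierstrassCurve.b₂, hα]; ring⟩
  obtain ⟨γ, hγ⟩ : ∃ γ, W.b₄ = 2 * γ :=
    ⟨W.a₄ + α * W.a₃, by simp only [WeierstrassCurve.b₄, hα]; ring⟩
  obtain ⟨δ, hδ⟩ : ∃ δ, W.a₃ = 2 * δ + 1 := by
    refine ⟨W.a₃ / 2, ?_⟩
    by_contra hne
    obtain ⟨a, ha⟩ : (2 : ℤ) ∣ W.a₃ := by omega
    refine hΔ2 ⟨-8 * β ^ 2 * W.b₈ - 32 * γ ^ 3 - 216 * (a ^ 2 + W.a₆) ^ 2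
      + 144 * β * γ * (a ^ 2 + W.a₆), ?_⟩
    have hb6 : W.b₆ = 4 * (a ^ 2 + W.a₆) := by simp only [WeierstrassCurve.b₆, ha]; ring
    simp only [WeierstrassCurve.Δ, hβ, hγ, hb6]; ring
  have hne4 : W.c₄ ≠ 0 := by
    intro h0
    have hu : W.Δ.natAbs = 1 := by
      by_contra hne
      obtain ⟨q, hq, hqd⟩ := Nat.exists_prime_and_dvd hne
      exact hW q hq (Int.natCast_dvd.mpr hqd) (h0 ▸ dvd_zero _)
    have e := W.c_relation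
    rw [h0] at e
    have e' : W.c₆.natAbs * W.c₆.natAbs = 1728 := by
      rw [← Int.natAbs_mul, ← sq,
        show W.c₆ ^ 2 = -(1728 * W.Δ) by linarith, Int.natAbs_neg, Int.natAbs_mul, hu]
      rfl
    rcases le_or_gt W.c₆.natAbs 41 with h | h <;> nlinarith [Nat.mul_le_mul h h]
  obtain ⟨C, hC⟩ : ∃ C, W.c₄ = 16 * C :=
    ⟨β ^ 2 - 3 * γ, by simp only [WeierstrassCurve.c₄, hβ, hγ]; ring⟩
  obtain ⟨C', hC'⟩ : ∃ C', W.c₆ = 8 * (4 * C' + 1) := by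
    refine ⟨-2 * β ^ 3 + 9 * β * γ - 27 * (δ ^ 2 + δ + W.a₆) - 7, ?_⟩
    simp only [WeierstrassCurve.c₆, hβ, hγ, WeierstrassCurve.b₆, hδ]; ring
  refine exists_twin_of_datum W hW hΔ hirr hne4 (t₁ := 1) (t₂ := 0) (e := 5) (j := 0)
    (by norm_num) fun x y hx hy => ?_
  refine ⟨fun h => ?_, fun B hB1 hB2 => ?_⟩
  · have := dvd_sub h.1 ((dvd_pow_self (2 : ℤ) (by norm_num : (5 : ℕ) ≠ 0)).trans hx)
    norm_num at this
  obtain ⟨-, k4, k6, -⟩ := congr_forms (n := 32) W.c₄ W.c₆ (x' := 1) (y' := 0)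
    (by simpa using hx) (by simpa using hy)
  rw [show q4 W.c₄ W.c₆ 1 0 = W.c₄ by simp [q4]] at k4
  rw [show q6 W.c₄ W.c₆ 1 0 = W.c₆ by simp [q6]] at k6
  obtain ⟨s, hs⟩ := k4
  obtain ⟨r, hr⟩ := k6
  push_cast at hs hr
  obtain ⟨a₂, a₄, a₆, hE4, hE6⟩ := exists_model (k := 0) (B := 16 * B)
    (F4 := 256 * q4 W.c₄ W.c₆ x y) (F6 := 4096 * q6 W.c₄ W.c₆ x y) (C4 := C + 2 * s)
    (C6 := 4 * (C' + r) + 1) (by linear_combination 256 * hs + 256 * hC)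
    (by linear_combination 4096 * hr + 4096 * hC') (by omega)
    (by rw [show (16 * B) ^ 2 - 256 * q4 W.c₄ W.c₆ x y = 256 * (B ^ 2 - q4 W.c₄ W.c₆ x y) by ring]
        exact hB1.mul_left _)
    (by rw [show 2 * (4096 * q6 W.c₄ W.c₆ x y) - (16 * B) ^ 3 + 3 * (16 * B) * (256 * q4 W.c₄ W.c₆ x y)
          = 4096 * (2 * q6 W.c₄ W.c₆ x y - B ^ 3 + 3 * B * q4 W.c₄ W.c₆ x y) by ring]
        exact hB2.mul_left _)
  exact ⟨a₂, a₄, a₆, by rw [hE4]; linear_combination -hs - hC,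
    by rw [hE6]; linear_combination -hr - hC'⟩

/-- For a semistable curve with irreducible 3-torsion, good at `2` or with `3 ∣ v₂(Δ)`: a
semistable curve with congruent traces mod `3`, good supersingular at `2`, negative discriminant
and odd valuation of the discriminant at every bad prime. -/
theorem exists_twin' (W : WeierstrassCurve ℤ) (hW : W.IsSemistableModel) (hΔ : W.Δ ≠ 0)
    (hirr : W.ModRepIsIrreducible 3) (h : ¬ (2 : ℤ) ∣ W.Δ ∨ 3 ∣ padicValInt 2 W.Δ) :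
    ∃ E : WeierstrassCurve ℤ, E.IsSemistableModel ∧ Even E.a₁ ∧ Odd E.a₃ ∧ E.Δ < 0 ∧
      (∀ q : ℕ, q.Prime → (q : ℤ) ∣ E.Δ → Odd (padicValInt q E.Δ)) ∧
      ∀ ℓ : ℕ, ℓ.Prime → W.IsGoodPrimeFor ℓ → E.IsGoodPrimeFor ℓ → ℓ ≠ 3 →
        (3 : ℤ) ∣ E.apOfModel ℓ - W.apOfModel ℓ := by
  have h3 : 3 ∣ padicValInt 2 W.Δ := h.elim
    (fun h => by rw [padicValInt.eq_zero_of_not_dvd (by simpa using h)]; exact dvd_zero 3) id
  by_cases hc2 : (2 : ℤ) ∣ W.c₄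
  · exact exists_twin_of_even W hW hΔ hirr hc2
  · exact exists_twin_of_odd W hW hΔ h3 hirr hc2

end Fermat.Agent.RT.Semistable
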