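import Fermat.Agent.RT.Two.Final
import Fermat.Agent.RT.Semistable.Twin
import Fermat.Agent.RT.Semistable.FiveMember
import Fermat.Agent.RT.Lift59.Mazur.Forms
import Fermat.Agent.S51
import Fermat.Agent.S52

/-!
# Every semistable curve is modular of exactly its conductor level

The two-adically admissible curves with irreducible three-torsion reach a theta seed through a twin.
The switches through five bring the curves with irreducible five-torsion to that case, and a member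
of the pencil of the three-torsion with irreducible five-torsion covers the remaining ones. The
seeds are squarefree, so neither Langlands-Tunnell nor lowering of squares is used.
-/

set_option autoImplicit false

open WeierstrassCurve

namespace Fermat.Agent.RT.Semistable

/-- The liftings at an odd prime from a congruent curve of exact conductor level. -/
theorem exact_of_residual {W : WeierstrassCurve ℤ} {p N : ℕ} (hp : p.Prime) (hp2 : p ≠ 2)
    (hΔ : W.Δ ≠ 0) (hW : W.IsSemistableModel) (hirr : W.ModRepIsIrreducible p)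
    (hsq : Squarefree N) (hres : W.IsResiduallyModularOfLevel p N) :
    Mlc1IsModularModelOfExactConductorLevel W :=
  Lift59.exactConductorLevel_of_squarefree Lift59.AtP.atPInput Lift59.Scalar.scalarInput
    Lift59.liftInput ⟨⟨hp, hp2⟩, hΔ, hW, hirr⟩ hsq hres

/-- Lifting from a congruent curve of exact conductor level. -/
theorem exact_of_congr {W W' : WeierstrassCurve ℤ} {p : ℕ} (hp : p.Prime) (hp2 : p ≠ 2)
    (hΔ : W.Δ ≠ 0) (hW : W.IsSemistableModel) (hirr : W.ModRepIsIrreducible p)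
    (h' : Mlc1IsModularModelOfExactConductorLevel W')
    (hcong : ∀ ℓ : ℕ, ℓ.Prime → W.IsGoodPrimeFor ℓ → W'.IsGoodPrimeFor ℓ → ℓ ≠ p →
      (p : ℤ) ∣ W'.apOfModel ℓ - W.apOfModel ℓ) :
    Mlc1IsModularModelOfExactConductorLevel W := by
  obtain ⟨N, -, hsq, hsupp, hmod⟩ := h'
  exact exact_of_residual hp hp2 hΔ hW hirr hsq (Two.residuallyModular_of_congr hp hmod
    (fun ℓ hℓ h hd => h ((hsupp ℓ hℓ).2 hd)) hcong)

/-- A congruence outside finitely many primes already gives residual modularity. -/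
theorem residuallyModular_of_congr_outside {W W' : WeierstrassCurve ℤ} {p N : ℕ} [Fact p.Prime]
    (hΔ : W.Δ ≠ 0) (hΔ' : W'.Δ ≠ 0) (hN : N ≠ 0) (h' : W'.IsResiduallyModularOfLevel p N)
    (T : Finset ℕ) (hcong : ∀ ℓ : ℕ, ℓ.Prime → ℓ ∉ T →
      (p : ℤ) ∣ W'.apOfModel ℓ - W.apOfModel ℓ) :
    W.IsResiduallyModularOfLevel p N := by
  classical
  set S : Finset ℕ := T ∪ insert p (N.primeFactors ∪ W'.Δ.natAbs.primeFactors) with hS
  obtain ⟨g, hg, φ, hφ⟩ := Lift59.isCongruentLevel_of_isResiduallyModularOfLevel (k := ZMod p)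
    (S := S) (fun ℓ hℓ h => by
      simp only [hS, Finset.mem_union, Finset.mem_insert, Nat.mem_primeFactors, ne_eq]
      rcases h with h | h | h
      · exact Or.inr (Or.inl h)
      · exact Or.inr (Or.inr (Or.inl ⟨hℓ, h, hN⟩))
      · exact Or.inr (Or.inr (Or.inr
          ⟨hℓ, Int.natCast_dvd.1 h, Int.natAbs_ne_zero.2 hΔ'⟩))) h'
  refine Lift59.isResiduallyModularOfLevel_of_congruent (k := ZMod p) hΔ hN (S := S)
    ⟨hg, φ, fun ℓ hℓ hℓS a ha => ?_⟩
  have h1 : Lift59.wAbar W (ZMod p) ℓ = Lift59.wAbar W' (ZMod p) ℓ :=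
    (ZMod.intCast_eq_intCast_iff_dvd_sub _ _ p).2
      (hcong ℓ hℓ fun h => hℓS (Finset.mem_union_left _ h))
  rw [h1]
  exact hφ ℓ hℓ hℓS a ha

/-- Irreducible three-torsion and a good or cubic place at two: through a twin curve. -/
theorem exact_of_three {W : WeierstrassCurve ℤ} (hW : W.IsSemistableModel) (hΔ : W.Δ ≠ 0)
    (h3 : W.ModRepIsIrreducible 3) (h2 : ¬ (2 : ℤ) ∣ W.Δ ∨ 3 ∣ padicValInt 2 W.Δ) :
    Mlc1IsModularModelOfExactConductorLevel W := by
  obtain ⟨E, hE, he1, he3, hneg, hodd, hc⟩ := exists_twin' W hW hΔ h3 h2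
  have hT : Two.IsTwinCurve E := ⟨hE, he1, he3, hneg, hodd⟩
  have hmod := Two.liftTwo_of_inputs Two.heckeAllInput Two.tangentInput Two.curveInput E hT
    (Two.seedInput E hT)
  exact exact_of_residual Nat.prime_three (by norm_num) hΔ hW h3 E.squarefree_conductorLevel
    (Two.residuallyModular_of_congr Nat.prime_three hmod
      (fun ℓ hℓ h hd => h ((E.prime_dvd_conductorLevel_iff hT.Δ_ne_zero hℓ).2 hd)) hc)

/-- Irreducible five-torsion: through one or two switches. -/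
theorem exact_of_five {W : WeierstrassCurve ℤ} (hW : W.IsSemistableModel) (hΔ : W.Δ ≠ 0)
    (h5 : W.ModRepIsIrreducible 5) : Mlc1IsModularModelOfExactConductorLevel W := by
  classical
  obtain ⟨W₁, hΔ₁, hW₁, h31, hc₁⟩ := S52.result W hΔ hW h5
  by_cases hA : ¬ (2 : ℤ) ∣ W₁.Δ ∨ 3 ∣ padicValInt 2 W₁.Δ
  · exact exact_of_congr Nat.prime_five (by norm_num) hΔ hW h5
      (exact_of_three hW₁ hΔ₁ h31 hA) hc₁
  rw [not_or, not_not] at hA
  obtain ⟨W₂, hΔ₂, hW₂, h32, -, h23, hc₂⟩ := Two.Switch.exists_switch_two W₁ hΔ₁ hW₁ hA.1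
  obtain ⟨N, hN, hsq, hsupp, hmod⟩ := exact_of_three hW₂ hΔ₂ h32 (Or.inr h23)
  have hgood : ∀ ℓ : ℕ, ℓ.Prime → ¬ ℓ ∣ N → W₂.IsGoodPrimeFor ℓ := fun ℓ hℓ h hd =>
    h ((hsupp ℓ hℓ).2 hd)
  have hres₂ : W₂.IsResiduallyModularOfLevel 5 N :=
    Two.residuallyModular_of_congr Nat.prime_five hmod hgood fun ℓ _ _ _ _ => by simp
  have : Fact (Nat.Prime 5) := ⟨Nat.prime_five⟩
  refine exact_of_residual Nat.prime_five (by norm_num) hΔ hW h5 hsq
    (residuallyModular_of_congr_outside hΔ hΔ₂ hN.ne' hres₂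
      (insert 5 (W.Δ.natAbs.primeFactors ∪ W₁.Δ.natAbs.primeFactors ∪ W₂.Δ.natAbs.primeFactors))
      fun ℓ hℓ hℓT => ?_)
  simp only [Finset.mem_insert, Finset.mem_union, not_or] at hℓT
  have hg : ∀ V : WeierstrassCurve ℤ, V.Δ ≠ 0 → ℓ ∉ V.Δ.natAbs.primeFactors → V.IsGoodPrimeFor ℓ :=
    fun V hV h hd => h (Nat.mem_primeFactors.2
      ⟨hℓ, Int.natCast_dvd.1 hd, Int.natAbs_ne_zero.2 hV⟩)
  have e₁ := hc₁ ℓ hℓ (hg W hΔ hℓT.2.1.1) (hg W₁ hΔ₁ hℓT.2.1.2) hℓT.1
  have e₂ := hc₂ ℓ hℓ (hg W₁ hΔ₁ hℓT.2.1.2) (hg W₂ hΔ₂ hℓT.2.2) hℓT.1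
  have e := Int.dvd_add e₂ e₁
  rwa [sub_add_sub_cancel] at e

/-- **Every semistable model is modular of exactly its conductor level.** -/
theorem exact_all (W : WeierstrassCurve ℤ) (hW : W.IsSemistableModel) (hΔ : W.Δ ≠ 0) :
    Mlc1IsModularModelOfExactConductorLevel W := by
  rcases S51.result W hΔ hW with h3 | h5
  · by_cases hA : ¬ (2 : ℤ) ∣ W.Δ ∨ 3 ∣ padicValInt 2 W.Δ
    · exact exact_of_three hW hΔ h3 hA
    rw [not_or, not_not] at hA
    obtain ⟨E, hΔE, hE, -, h5E, hc⟩ := exists_five_member W hW hΔ hA.1 h3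
    exact exact_of_congr Nat.prime_three (by norm_num) hΔ hW h3 (exact_of_five hE hΔE h5E) hc
  · exact exact_of_five hW hΔ h5

/-- Every semistable model gives a modular elliptic curve. -/
theorem isModular_map (W : WeierstrassCurve ℤ) (hW : W.IsSemistableModel) (hΔ : W.Δ ≠ 0) :
    (W.map (Int.castRingHom ℚ)).IsModular := by
  obtain ⟨N, hN, -, -, hmod⟩ := exact_all W hW hΔ
  exact ⟨W, ⟨1, one_smul _ _⟩, N, hN, hmod⟩

/-- Residual modularity modulo three at a squarefree level. -/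
theorem residuallyModular_three (W : WeierstrassCurve ℤ) (hW : W.IsSemistableModel)
    (hΔ : W.Δ ≠ 0) : ∃ M : ℕ, 0 < M ∧ Squarefree M ∧ W.IsResiduallyModularOfLevel 3 M := by
  obtain ⟨N, hN, hsq, hsupp, hmod⟩ := exact_all W hW hΔ
  exact ⟨N, hN, hsq, Two.residuallyModular_of_congr Nat.prime_three hmod
    (fun ℓ hℓ h hd => h ((hsupp ℓ hℓ).2 hd)) fun ℓ _ _ _ _ => by simp⟩

end Fermat.Agent.RT.Semistable
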